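/-
Fermat/Agent/S20_helper11/CuspCount.lean  (helper11; shared combinatorics for T20 / T24, piece C-inf)

The number of orbits of `T = [[1,1],[0,1]]` acting by left multiplication on the coset space
`SL(2,Z) / Gamma0(N)` (that is, the number of cusps of `X0(N)`) equals the prelude's
`ModularCurve.cuspCount N = sum over d | N of phi(gcd(d, N/d))`.

Main exports (namespace `Fermat.Agent.S20_helper11`):
* `coset_eq_iff`      : equality of cosets  iff  `N` divides `g00 * g'10 - g10 * g'00`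
* `cuspProj`, `cuspProj_surjective`, `cuspProj_eq_iff`
* `core`              : the arithmetic heart
* `cuspInv`, `cuspIndex`, `cuspInv_eq_iff`, `cuspInv_surjOn`, `card_cuspIndex`
* `card_orbits_T`     : THE theorem
* `T_pow_level_smul`  : `T ^ N` acts trivially (all widths divide `N`)
* `finite_orbits_T`
-/
import Mathlib
import Fermat.Prelude.Def_ModularCurve_GenusNumerics

open CongruenceSubgroup Matrix.SpecialLinearGroup ModularGroup
open scoped MatrixGroups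

namespace Fermat.Agent.S20_helper11


theorem core_alg (δ γ γ' M a a' e k x y u v : ℤ) (hk : a' * γ - a * γ' = e * k)
    (he : e = δ * x + M * y) (hu : u * γ * γ' + v * M = 1) :
    (a' + (-x * u * k) * (δ * γ')) * (δ * γ) - (δ * γ') * a = (δ * M) * (k * (y + x * δ * v)) := by
  linear_combination δ * hk + δ * k * he - δ ^ 2 * k * x * hu

theorem core_aux (N δ : ℕ) (hN : 0 < N) (a c a' c' : ℤ) (h : IsCoprime a c)
    (h' : IsCoprime a' c') (hδ : Int.gcd c N = δ) :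
    (∃ n : ℤ, (N : ℤ) ∣ (a' + n * c') * c - c' * a) ↔
      (Int.gcd c' N = δ ∧
        ((Nat.gcd δ (N / δ) : ℕ) : ℤ) ∣ a' * (c / (δ : ℤ)) - a * (c' / (δ : ℤ))) := by
  have hδpos : 0 < δ := hδ ▸ Int.gcd_pos_of_ne_zero_right _ (by exact_mod_cast hN.ne')
  have hδc : (δ : ℤ) ∣ c := hδ ▸ Int.gcd_dvd_left _ _
  have hδN : (δ : ℤ) ∣ (N : ℤ) := hδ ▸ Int.gcd_dvd_right _ _
  have hδN' : δ ∣ N := by exact_mod_cast hδN
  have hδne : (δ : ℤ) ≠ 0 := by exact_mod_cast hδpos.ne'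
  obtain ⟨M, rfl⟩ := hδN'
  have hMdiv : δ * M / δ = M := Nat.mul_div_cancel_left _ hδpos
  rw [hMdiv]
  obtain ⟨γ, rfl⟩ := hδc
  have e1 : (δ : ℤ) * γ / (δ : ℤ) = γ := Int.mul_ediv_cancel_left _ hδne
  rw [e1]
  have he1 : ((Nat.gcd δ M : ℕ) : ℤ) ∣ (M : ℤ) := by exact_mod_cast Nat.gcd_dvd_right _ _
  have he2 : ((Nat.gcd δ M : ℕ) : ℤ) ∣ (δ : ℤ) := by exact_mod_cast Nat.gcd_dvd_left _ _
  constructor
  · rintro ⟨n, hn⟩
    have h1 : (δ : ℤ) ∣ c' := by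
      have h2 : (δ : ℤ) ∣ a * c' := by
        have h3 : (δ : ℤ) ∣ (a' + n * c') * (δ * γ) - c' * a := hδN.trans hn
        have h4 : (δ : ℤ) ∣ (a' + n * c') * (δ * γ) := Dvd.dvd.mul_left (Dvd.intro _ rfl) _
        have := (Int.dvd_sub h4 h3)
        simpa [mul_comm] using this
      have hcop : IsCoprime (δ : ℤ) a :=
        (IsCoprime.of_isCoprime_of_dvd_right h (Dvd.intro _ rfl)).symm
      exact hcop.dvd_of_dvd_mul_left h2
    have h1' : ((Int.gcd c' ((δ * M : ℕ) : ℤ) : ℕ) : ℤ) ∣ (δ : ℤ) * γ := by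
      have hδc' : ((Int.gcd c' ((δ * M : ℕ) : ℤ) : ℕ) : ℤ) ∣ c' := Int.gcd_dvd_left _ _
      have hδN2 : ((Int.gcd c' ((δ * M : ℕ) : ℤ) : ℕ) : ℤ) ∣ ((δ * M : ℕ) : ℤ) := Int.gcd_dvd_right _ _
      have h2 : ((Int.gcd c' ((δ * M : ℕ) : ℤ) : ℕ) : ℤ) ∣ (a' + n * c') * ((δ : ℤ) * γ) := by
        have h3 := hδN2.trans hn
        have h4 : ((Int.gcd c' ((δ * M : ℕ) : ℤ) : ℕ) : ℤ) ∣ c' * a := Dvd.dvd.mul_right hδc' _
        have := (Int.dvd_add h3 h4)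
        simpa using this
      have hcop : IsCoprime ((Int.gcd c' ((δ * M : ℕ) : ℤ) : ℕ) : ℤ) (a' + n * c') := by
        have : IsCoprime (a' + n * c') c' := IsCoprime.add_mul_right_left h' n
        exact (IsCoprime.of_isCoprime_of_dvd_right this hδc').symm
      exact hcop.dvd_of_dvd_mul_left h2
    have heq : Int.gcd c' ((δ * M : ℕ) : ℤ) = δ := by
      apply Nat.dvd_antisymm
      · have := Int.dvd_gcd h1' (Int.gcd_dvd_right c' ((δ * M : ℕ) : ℤ))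
        rwa [hδ] at this
      · exact Int.dvd_gcd h1 hδN
    refine ⟨heq, ?_⟩
    obtain ⟨γ', rfl⟩ := h1
    have e2 : (δ : ℤ) * γ' / (δ : ℤ) = γ' := Int.mul_ediv_cancel_left _ hδne
    rw [e2]
    obtain ⟨w, hw⟩ := hn
    have hMw : (a' + n * (δ * γ')) * γ - γ' * a = (M : ℤ) * w := by
      have : (δ : ℤ) * ((a' + n * (δ * γ')) * γ - γ' * a) = (δ : ℤ) * ((M : ℤ) * w) := by
        push_cast at hw
        linear_combination hw
      exact mul_left_cancel₀ hδne this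
    have : a' * γ - a * γ' = ((a' + n * (δ * γ')) * γ - γ' * a) - (δ : ℤ) * (n * γ * γ') := by ring
    rw [this]
    exact Int.dvd_sub (hMw ▸ Dvd.dvd.mul_right he1 w) (Dvd.dvd.mul_right he2 _)
  · rintro ⟨heq, hdiv⟩
    have hδc' : (δ : ℤ) ∣ c' := heq ▸ Int.gcd_dvd_left _ _
    have hpos' : 0 < Int.gcd ((δ : ℤ) * γ) ((δ * M : ℕ) : ℤ) := by rw [hδ]; exact hδpos
    have hg1 := Int.gcd_div_gcd_div_gcd hpos'
    have hpos'' : 0 < Int.gcd c' ((δ * M : ℕ) : ℤ) := by rw [heq]; exact hδpos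
    have hg2 := Int.gcd_div_gcd_div_gcd hpos''
    rw [hδ] at hg1
    rw [heq] at hg2
    obtain ⟨γ', rfl⟩ := hδc'
    have e2 : (δ : ℤ) * γ' / (δ : ℤ) = γ' := Int.mul_ediv_cancel_left _ hδne
    have e3 : ((δ * M : ℕ) : ℤ) / (δ : ℤ) = M := by
      push_cast
      exact Int.mul_ediv_cancel_left _ hδne
    rw [e2] at hdiv hg2
    rw [e1, e3] at hg1
    rw [e3] at hg2
    have hcop : IsCoprime (γ * γ') (M : ℤ) :=
      IsCoprime.mul_left (Int.isCoprime_iff_gcd_eq_one.mpr hg1) (Int.isCoprime_iff_gcd_eq_one.mpr hg2)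
    obtain ⟨u, v, huv⟩ := hcop
    obtain ⟨k, hk⟩ := hdiv
    have hbez : ((Nat.gcd δ M : ℕ) : ℤ) =
        (δ : ℤ) * Int.gcdA δ M + (M : ℤ) * Int.gcdB δ M := by
      have := Int.gcd_eq_gcd_ab (δ : ℤ) (M : ℤ)
      rw [← this]
      simp [Int.gcd_natCast_natCast]
    refine ⟨-(Int.gcdA δ M) * u * k,
      k * (Int.gcdB δ M + Int.gcdA δ M * (δ : ℤ) * v), ?_⟩
    push_cast
    exact core_alg _ γ γ' M a a' _ k _ _ u v hk hbez (by linear_combination huv)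

/-- The arithmetic heart of the cusp count. -/
theorem core (N : ℕ) (hN : 0 < N) (a c a' c' : ℤ) (h : IsCoprime a c) (h' : IsCoprime a' c') :
    (∃ n : ℤ, (N : ℤ) ∣ (a' + n * c') * c - c' * a) ↔
      (Int.gcd c' N = Int.gcd c N ∧
        ((Nat.gcd (Int.gcd c N) (N / Int.gcd c N) : ℕ) : ℤ) ∣
          a' * (c / (Int.gcd c N : ℤ)) - a * (c' / (Int.gcd c N : ℤ))) :=
  core_aux N _ hN a c a' c' h h' rfl



/-- Cosets: equality in `SL(2,ℤ) ⧸ Γ₀(N)` is proportionality of first columns mod `N`. -/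
theorem coset_eq_iff (N : ℕ) (g g' : SL(2,ℤ)) :
    ((g : SL(2,ℤ) ⧸ Gamma0 N) = (g' : SL(2,ℤ) ⧸ Gamma0 N)) ↔
      (N : ℤ) ∣ g 0 0 * g' 1 0 - g 1 0 * g' 0 0 := by
  rw [QuotientGroup.eq, Gamma0_mem, ZMod.intCast_zmod_eq_zero_iff_dvd]
  have : (↑(g⁻¹ * g') : Matrix (Fin 2) (Fin 2) ℤ) 1 0 = g 0 0 * g' 1 0 - g 1 0 * g' 0 0 := by
    rw [Matrix.SpecialLinearGroup.coe_mul, Matrix.SpecialLinearGroup.coe_inv,
      Matrix.adjugate_fin_two, Matrix.mul_apply, Fin.sum_univ_two]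
    simp
    ring
  rw [this]

/-- The projection from `SL(2,ℤ)` to the set of `T`-orbits on `SL(2,ℤ) ⧸ Γ₀(N)` (the cusps). -/
def cuspProj (N : ℕ) (g : SL(2,ℤ)) :
    MulAction.orbitRel.Quotient (Subgroup.zpowers T) (SL(2,ℤ) ⧸ Gamma0 N) :=
  Quotient.mk'' (g : SL(2,ℤ) ⧸ Gamma0 N)

theorem cuspProj_surjective (N : ℕ) : Function.Surjective (cuspProj N) := by
  intro x
  induction x using Quotient.inductionOn' with
  | h y =>
    induction y using QuotientGroup.induction_on with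
    | H g => exact ⟨g, rfl⟩

theorem T_zpow_mul_apply (n : ℤ) (g : SL(2,ℤ)) :
    (↑(T ^ n * g) : Matrix (Fin 2) (Fin 2) ℤ) 0 0 = g 0 0 + n * g 1 0 ∧
    (↑(T ^ n * g) : Matrix (Fin 2) (Fin 2) ℤ) 1 0 = g 1 0 := by
  rw [Matrix.SpecialLinearGroup.coe_mul, coe_T_zpow]
  simp [Matrix.mul_apply, Fin.sum_univ_two]

theorem cuspProj_eq_iff (N : ℕ) (g g' : SL(2,ℤ)) :
    cuspProj N g = cuspProj N g' ↔
      ∃ n : ℤ, (N : ℤ) ∣ (g' 0 0 + n * g' 1 0) * g 1 0 - g' 1 0 * g 0 0 := by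
  unfold cuspProj
  rw [Quotient.eq'', MulAction.orbitRel_apply, MulAction.mem_orbit_iff]
  constructor
  · rintro ⟨⟨t, ht⟩, h⟩
    obtain ⟨n, rfl⟩ := Subgroup.mem_zpowers_iff.mp ht
    refine ⟨n, ?_⟩
    have h2 : ((T ^ n * g' : SL(2,ℤ)) : SL(2,ℤ) ⧸ Gamma0 N) = (g : SL(2,ℤ) ⧸ Gamma0 N) := h
    rw [coset_eq_iff, (T_zpow_mul_apply n g').1, (T_zpow_mul_apply n g').2] at h2
    exact h2
  · rintro ⟨n, hn⟩
    refine ⟨⟨T ^ n, Subgroup.zpow_mem_zpowers T n⟩, ?_⟩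
    show ((T ^ n * g' : SL(2,ℤ)) : SL(2,ℤ) ⧸ Gamma0 N) = (g : SL(2,ℤ) ⧸ Gamma0 N)
    rw [coset_eq_iff, (T_zpow_mul_apply n g').1, (T_zpow_mul_apply n g').2]
    exact hn



/-- residue `a * γ⁻¹ mod e` as a natural number `< e` -/
noncomputable def rOf (e : ℕ) (a γ : ℤ) : ℕ := (((a : ZMod e)) * ((γ : ZMod e))⁻¹).val

theorem rOf_eq_iff (e : ℕ) [NeZero e] (a γ a' γ' : ℤ) (hγ : IsUnit (γ : ZMod e))
    (hγ' : IsUnit (γ' : ZMod e)) :
    rOf e a γ = rOf e a' γ' ↔ (e : ℤ) ∣ a' * γ - a * γ' := by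
  unfold rOf
  rw [(ZMod.val_injective e).eq_iff]
  have h1 : (γ : ZMod e) * (γ : ZMod e)⁻¹ = 1 := ZMod.mul_inv_of_unit _ hγ
  have h2 : (γ' : ZMod e) * (γ' : ZMod e)⁻¹ = 1 := ZMod.mul_inv_of_unit _ hγ'
  have key : ((a : ZMod e)) * ((γ : ZMod e))⁻¹ = (a' : ZMod e) * ((γ' : ZMod e))⁻¹ ↔
      ((a * γ' : ℤ) : ZMod e) = ((a' * γ : ℤ) : ZMod e) := by
    push_cast
    constructor
    · intro h
      linear_combination ((γ : ZMod e) * γ') * h - (a : ZMod e) * γ' * h1 + (a' : ZMod e) * γ * h2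
    · intro h
      linear_combination ((γ : ZMod e)⁻¹ * (γ' : ZMod e)⁻¹) * h - (a : ZMod e) * (γ : ZMod e)⁻¹ * h2
        + (a' : ZMod e) * (γ' : ZMod e)⁻¹ * h1
  rw [key, ZMod.intCast_eq_intCast_iff_dvd_sub]

theorem rOf_lt (e : ℕ) [NeZero e] (a γ : ℤ) : rOf e a γ < e := ZMod.val_lt _

theorem rOf_coprime (e : ℕ) [NeZero e] (a γ : ℤ) (ha : IsUnit (a : ZMod e)) (hγ : IsUnit (γ : ZMod e)) :
    Nat.Coprime e (rOf e a γ) := by
  unfold rOf
  have h1 : (γ : ZMod e) * (γ : ZMod e)⁻¹ = 1 := ZMod.mul_inv_of_unit _ hγ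
  have hu : IsUnit ((a : ZMod e) * (γ : ZMod e)⁻¹) :=
    ha.mul (IsUnit.of_mul_eq_one _ (by rw [mul_comm]; exact h1))
  obtain ⟨u, hu⟩ := hu
  rw [← hu]
  exact (ZMod.val_coe_unit_coprime u).symm


theorem isCoprime_col (g : SL(2,ℤ)) : IsCoprime (g 0 0) (g 1 0) := by
  refine ⟨g 1 1, -(g 0 1), ?_⟩
  have := g.det_coe
  rw [Matrix.det_fin_two] at this
  linear_combination this

/-- level of the cusp `g∞` -/
abbrev lev (N : ℕ) (g : SL(2,ℤ)) : ℕ := Int.gcd (g 1 0) N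

def eps (N δ : ℕ) : ℕ := Nat.gcd δ (N / δ)

theorem lev_dvd (N : ℕ) (g : SL(2,ℤ)) : lev N g ∣ N := by
  have : ((lev N g : ℕ) : ℤ) ∣ (N : ℤ) := Int.gcd_dvd_right _ _
  exact_mod_cast this

theorem lev_pos (N : ℕ) [NeZero N] (g : SL(2,ℤ)) : 0 < lev N g :=
  Nat.pos_of_dvd_of_pos (lev_dvd N g) (NeZero.pos N)

theorem eps_pos (N δ : ℕ) [NeZero N] (hδ : δ ∣ N) : 0 < eps N δ := by
  have hδpos : 0 < δ := Nat.pos_of_dvd_of_pos hδ (NeZero.pos N)
  exact Nat.gcd_pos_of_pos_left _ hδpos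

theorem eps_dvd_left (N δ : ℕ) : eps N δ ∣ δ := Nat.gcd_dvd_left _ _
theorem eps_dvd_right (N δ : ℕ) : eps N δ ∣ N / δ := Nat.gcd_dvd_right _ _

/-- the invariant of a cusp: its level `δ ∣ N` and a unit residue mod `gcd(δ, N/δ)` -/
noncomputable def cuspInv (N : ℕ) (g : SL(2,ℤ)) : (_ : ℕ) × ℕ :=
  ⟨lev N g, rOf (eps N (lev N g)) (g 0 0) (g 1 0 / (lev N g : ℤ))⟩

def cuspIndex (N : ℕ) : Finset ((_ : ℕ) × ℕ) :=
  N.divisors.sigma fun δ => (Finset.range (eps N δ)).filter (Nat.Coprime (eps N δ))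

theorem card_cuspIndex (N : ℕ) : (cuspIndex N).card = ModularCurve.cuspCount N := by
  rw [cuspIndex, Finset.card_sigma, ModularCurve.cuspCount]
  refine Finset.sum_congr rfl fun δ _ => ?_
  rw [Nat.totient_eq_card_coprime]
  rfl

theorem isUnit_a (N : ℕ) (g : SL(2,ℤ)) : IsUnit (((g 0 0 : ℤ)) : ZMod (eps N (lev N g))) := by
  rw [ZMod.coe_int_isUnit_iff_isCoprime]
  have h1 : ((eps N (lev N g) : ℕ) : ℤ) ∣ g 1 0 := by
    have h2 : ((eps N (lev N g) : ℕ) : ℤ) ∣ ((lev N g : ℕ) : ℤ) := by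
      exact_mod_cast eps_dvd_left N (lev N g)
    exact h2.trans (Int.gcd_dvd_left _ _)
  exact (IsCoprime.of_isCoprime_of_dvd_right (isCoprime_col g) h1).symm

theorem isUnit_gamma (N : ℕ) [NeZero N] (c : ℤ) (δ : ℕ) (hδ : Int.gcd c N = δ) :
    IsUnit (((c / (δ : ℤ) : ℤ)) : ZMod (eps N δ)) := by
  rw [ZMod.coe_int_isUnit_iff_isCoprime]
  have hpos : 0 < Int.gcd c N := Int.gcd_pos_of_ne_zero_right _ (by exact_mod_cast (NeZero.ne N))
  have hg := Int.gcd_div_gcd_div_gcd hpos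
  rw [hδ] at hg
  have hco : IsCoprime (c / (δ : ℤ)) ((N : ℤ) / (δ : ℤ)) := Int.isCoprime_iff_gcd_eq_one.mpr hg
  have h1 : ((eps N δ : ℕ) : ℤ) ∣ (N : ℤ) / (δ : ℤ) := by
    have := eps_dvd_right N δ
    have h2 : ((eps N δ : ℕ) : ℤ) ∣ ((N / δ : ℕ) : ℤ) := by exact_mod_cast this
    rwa [Int.natCast_div] at h2
  exact (IsCoprime.of_isCoprime_of_dvd_right hco h1).symm

theorem cuspInv_mem (N : ℕ) [NeZero N] (g : SL(2,ℤ)) : cuspInv N g ∈ cuspIndex N := by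
  unfold cuspInv cuspIndex
  have : NeZero (eps N (lev N g)) := ⟨(eps_pos N _ (lev_dvd N g)).ne'⟩
  rw [Finset.mem_sigma]
  refine ⟨Nat.mem_divisors.mpr ⟨lev_dvd N g, NeZero.ne N⟩, ?_⟩
  rw [Finset.mem_filter, Finset.mem_range]
  exact ⟨rOf_lt _ _ _, rOf_coprime _ _ _ (isUnit_a N g) (isUnit_gamma N _ _ rfl)⟩

theorem cuspInv_eq_iff (N : ℕ) [NeZero N] (g g' : SL(2,ℤ)) :
    cuspInv N g = cuspInv N g' ↔ cuspProj N g = cuspProj N g' := by
  rw [cuspProj_eq_iff, core N (NeZero.pos N) _ _ _ _ (isCoprime_col g) (isCoprime_col g')]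
  have : NeZero (eps N (lev N g)) := ⟨(eps_pos N _ (lev_dvd N g)).ne'⟩
  constructor
  · intro h
    have h1 : lev N g = lev N g' := congrArg Sigma.fst h
    have h2 : rOf (eps N (lev N g)) (g 0 0) (g 1 0 / (lev N g : ℤ)) =
        rOf (eps N (lev N g')) (g' 0 0) (g' 1 0 / (lev N g' : ℤ)) := congrArg Sigma.snd h
    rw [← h1] at h2
    refine ⟨h1.symm, ?_⟩
    rw [rOf_eq_iff _ _ _ _ _ (isUnit_gamma N _ _ rfl) (isUnit_gamma N _ _ h1.symm)] at h2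
    exact h2
  · rintro ⟨h1, h2⟩
    have h1' : lev N g' = lev N g := h1
    unfold cuspInv
    rw [h1']
    congr 1
    rw [rOf_eq_iff _ _ _ _ _ (isUnit_gamma N _ _ rfl) (isUnit_gamma N _ _ h1)]
    exact h2


theorem cuspInv_surjOn (N : ℕ) [NeZero N] (x : (_ : ℕ) × ℕ) (hx : x ∈ cuspIndex N) :
    ∃ g : SL(2,ℤ), cuspInv N g = x := by
  obtain ⟨δ, r⟩ := x
  unfold cuspIndex at hx
  rw [Finset.mem_sigma, Finset.mem_filter, Finset.mem_range] at hx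
  obtain ⟨hδ, hr, hcop⟩ := hx
  simp only at hδ hr hcop
  have hδN : δ ∣ N := Nat.dvd_of_mem_divisors hδ
  have hδpos : 0 < δ := Nat.pos_of_dvd_of_pos hδN (NeZero.pos N)
  have : NeZero δ := ⟨hδpos.ne'⟩
  have : NeZero (eps N δ) := ⟨(eps_pos N δ hδN).ne'⟩
  obtain ⟨u, hu⟩ := ZMod.unitsMap_surjective (eps_dvd_left N δ) (ZMod.unitOfCoprime r hcop.symm)
  have hucop : ((u : ZMod δ).val).Coprime δ := ZMod.val_coe_unit_coprime u
  obtain ⟨s, t, hst⟩ := (Nat.isCoprime_iff_coprime.mpr hucop : IsCoprime (((u : ZMod δ).val : ℕ) : ℤ) (δ : ℤ))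
  let g : SL(2,ℤ) := ⟨!![(((u : ZMod δ).val : ℕ) : ℤ), -t; (δ : ℤ), s], by
    rw [Matrix.det_fin_two_of]; linear_combination hst⟩
  have hg00 : g 0 0 = (((u : ZMod δ).val : ℕ) : ℤ) := rfl
  have hg10 : g 1 0 = (δ : ℤ) := rfl
  have hlev : lev N g = δ := by
    show Int.gcd (g 1 0) N = δ
    rw [hg10, Int.gcd_natCast_natCast]
    exact Nat.gcd_eq_left hδN
  refine ⟨g, ?_⟩
  unfold cuspInv
  rw [hlev, hg00, hg10]
  congr 1
  have hdiv : (δ : ℤ) / (δ : ℤ) = 1 := Int.ediv_self (by exact_mod_cast hδpos.ne')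
  rw [hdiv]
  unfold rOf
  have hcast : (((((u : ZMod δ).val : ℕ) : ℤ)) : ZMod (eps N δ)) = (r : ZMod (eps N δ)) := by
    have h1 : ((ZMod.unitsMap (eps_dvd_left N δ) u : (ZMod (eps N δ))ˣ) : ZMod (eps N δ)) = (r : ZMod (eps N δ)) := by
      rw [hu, ZMod.coe_unitOfCoprime]
    rw [← h1]
    simp [ZMod.unitsMap, ZMod.castHom_apply]
  rw [hcast]
  rw [Int.cast_one, ZMod.inv_one, mul_one, ZMod.val_natCast]
  exact Nat.mod_eq_of_lt hr

/-- **Cusp count**: the number of orbits of `T = [[1,1],[0,1]]` on `SL(2,ℤ) ⧸ Γ₀(N)` is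
`∑_{d ∣ N} φ(gcd(d, N/d))`. -/
theorem card_orbits_T (N : ℕ) [NeZero N] :
    Nat.card (MulAction.orbitRel.Quotient (Subgroup.zpowers T) (SL(2,ℤ) ⧸ Gamma0 N)) =
      ModularCurve.cuspCount N := by
  rw [← card_cuspIndex, ← Nat.card_eq_finsetCard]
  let F : MulAction.orbitRel.Quotient (Subgroup.zpowers T) (SL(2,ℤ) ⧸ Gamma0 N) → ↥(cuspIndex N) :=
    fun q => ⟨cuspInv N (Function.surjInv (cuspProj_surjective N) q), cuspInv_mem N _⟩
  refine Nat.card_eq_of_bijective F ⟨?_, ?_⟩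
  · intro q q' h
    have h1 : cuspInv N (Function.surjInv (cuspProj_surjective N) q) =
        cuspInv N (Function.surjInv (cuspProj_surjective N) q') := congrArg Subtype.val h
    rw [cuspInv_eq_iff, Function.surjInv_eq (cuspProj_surjective N) q,
      Function.surjInv_eq (cuspProj_surjective N) q'] at h1
    exact h1
  · rintro ⟨x, hx⟩
    obtain ⟨g, hg⟩ := cuspInv_surjOn N x hx
    refine ⟨cuspProj N g, ?_⟩
    apply Subtype.ext
    show cuspInv N (Function.surjInv (cuspProj_surjective N) (cuspProj N g)) = x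
    rw [← hg, cuspInv_eq_iff, Function.surjInv_eq (cuspProj_surjective N)]


/-- `T ^ N` acts trivially on `SL(2,ℤ) ⧸ Γ₀(N)`: every cusp width divides `N`. -/
theorem T_pow_level_smul (N : ℕ) (x : SL(2,ℤ) ⧸ Gamma0 N) : (T ^ (N : ℤ)) • x = x := by
  induction x using QuotientGroup.induction_on with
  | H g =>
    show ((T ^ (N : ℤ) * g : SL(2,ℤ)) : SL(2,ℤ) ⧸ Gamma0 N) = (g : SL(2,ℤ) ⧸ Gamma0 N)
    rw [coset_eq_iff, (T_zpow_mul_apply (N : ℤ) g).1, (T_zpow_mul_apply (N : ℤ) g).2]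
    exact ⟨g 1 0 * g 1 0, by ring⟩

instance finite_orbits_T (N : ℕ) [NeZero N] :
    Finite (MulAction.orbitRel.Quotient (Subgroup.zpowers T) (SL(2,ℤ) ⧸ Gamma0 N)) := by
  apply Nat.finite_of_card_ne_zero
  rw [card_orbits_T, ModularCurve.cuspCount]
  have h1 : 1 ∈ N.divisors := Nat.mem_divisors.mpr ⟨one_dvd _, NeZero.ne N⟩
  have : 0 < ∑ d ∈ N.divisors, Nat.totient (Nat.gcd d (N / d)) :=
    Finset.sum_pos' (fun _ _ => Nat.zero_le _) ⟨1, h1, by simp⟩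
  exact this.ne'

/-- two elements of `SL(2,ℤ)` define the same cusp of `Γ₀(N)` iff they have the same invariant -/
theorem cuspProj_eq_iff_inv (N : ℕ) [NeZero N] (g g' : SL(2,ℤ)) :
    cuspProj N g = cuspProj N g' ↔ cuspInv N g = cuspInv N g' := (cuspInv_eq_iff N g g').symm

end Fermat.Agent.S20_helper11
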