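/-
Fermat/Agent/S20_helper11/CuspWidth.lean  (helper11; T20 piece E-Cinf, widths API)

Cusps of `Gamma0(N)` as `T`-orbits on `X_N = SL(2,Z) / Gamma0(N)`, their representatives and widths,
and the decomposition `X_N = disjoint union over cusps s of {T^m * rep s : m < width s}`.
-/
import Fermat.Agent.S20_helper11.CuspCount

open CongruenceSubgroup Matrix.SpecialLinearGroup ModularGroup
open scoped MatrixGroups

namespace Fermat.Agent.S20_helper11

/-- the set of cusps of `Γ₀(N)`: orbits of `T` on `SL(2,ℤ) ⧸ Γ₀(N)` -/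
abbrev Cusps (N : ℕ) : Type :=
  MulAction.orbitRel.Quotient (Subgroup.zpowers T) (SL(2,ℤ) ⧸ Gamma0 N)

theorem card_cusps (N : ℕ) [NeZero N] : Nat.card (Cusps N) = ModularCurve.cuspCount N :=
  card_orbits_T N

instance finite_cusps (N : ℕ) [NeZero N] : Finite (Cusps N) := finite_orbits_T N

/-- chosen representative (in `X_N`) of a cusp -/
noncomputable def cuspRep {N : ℕ} (s : Cusps N) : SL(2,ℤ) ⧸ Gamma0 N := Quotient.out s

theorem mk_cuspRep {N : ℕ} (s : Cusps N) : (Quotient.mk'' (cuspRep s) : Cusps N) = s :=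
  Quotient.out_eq' s

/-- the width of a point of `X_N`: the minimal period of `T` -/
noncomputable def width {N : ℕ} (x : SL(2,ℤ) ⧸ Gamma0 N) : ℕ :=
  Function.minimalPeriod (fun y : SL(2,ℤ) ⧸ Gamma0 N => T • y) x

/-- the width of a cusp -/
noncomputable def cuspWidth {N : ℕ} (s : Cusps N) : ℕ := width (cuspRep s)

theorem isPeriodicPt_level {N : ℕ} (x : SL(2,ℤ) ⧸ Gamma0 N) :
    Function.IsPeriodicPt (fun y : SL(2,ℤ) ⧸ Gamma0 N => T • y) N x := by
  rw [Function.IsPeriodicPt, Function.IsFixedPt, smul_iterate]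
  have := T_pow_level_smul N x
  rwa [zpow_natCast] at this

theorem width_dvd {N : ℕ} (x : SL(2,ℤ) ⧸ Gamma0 N) : width x ∣ N :=
  (isPeriodicPt_level x).minimalPeriod_dvd

theorem width_pos {N : ℕ} [NeZero N] (x : SL(2,ℤ) ⧸ Gamma0 N) : 0 < width x :=
  (isPeriodicPt_level x).minimalPeriod_pos (NeZero.pos N)

theorem cuspWidth_dvd {N : ℕ} (s : Cusps N) : cuspWidth s ∣ N := width_dvd _

theorem cuspWidth_pos {N : ℕ} [NeZero N] (s : Cusps N) : 0 < cuspWidth s := width_pos _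

instance {N : ℕ} [NeZero N] (s : Cusps N) : NeZero (cuspWidth s) := ⟨(cuspWidth_pos s).ne'⟩

theorem T_zpow_smul_eq_self_iff {N : ℕ} (x : SL(2,ℤ) ⧸ Gamma0 N) (n : ℤ) :
    T ^ n • x = x ↔ (width x : ℤ) ∣ n :=
  MulAction.zpow_smul_eq_iff_minimalPeriod_dvd

theorem T_pow_smul_eq_self_iff {N : ℕ} (x : SL(2,ℤ) ⧸ Gamma0 N) (n : ℕ) :
    T ^ n • x = x ↔ width x ∣ n :=
  MulAction.pow_smul_eq_iff_minimalPeriod_dvd

theorem T_pow_width_smul {N : ℕ} (x : SL(2,ℤ) ⧸ Gamma0 N) : T ^ (width x) • x = x :=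
  (T_pow_smul_eq_self_iff x _).mpr dvd_rfl

theorem T_zpow_smul_eq_iff {N : ℕ} (x : SL(2,ℤ) ⧸ Gamma0 N) (m n : ℤ) :
    T ^ m • x = T ^ n • x ↔ (width x : ℤ) ∣ m - n := by
  rw [← T_zpow_smul_eq_self_iff]
  have h : T ^ m = T ^ n * T ^ (m - n) := by
    rw [← zpow_add]; congr 1; ring
  rw [h, mul_smul, smul_left_cancel_iff]

theorem T_zpow_smul_cuspRep_eq_iff {N : ℕ} (s : Cusps N) (m n : ℤ) :
    T ^ m • cuspRep s = T ^ n • cuspRep s ↔ (cuspWidth s : ℤ) ∣ m - n :=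
  T_zpow_smul_eq_iff _ m n

/-- the width is constant on `T`-orbits -/
theorem width_T_smul {N : ℕ} (x : SL(2,ℤ) ⧸ Gamma0 N) : width (T • x) = width x := by
  apply Nat.dvd_antisymm
  · apply Function.IsPeriodicPt.minimalPeriod_dvd
    rw [Function.IsPeriodicPt, Function.IsFixedPt, smul_iterate]
    show T ^ width x • T • x = T • x
    rw [smul_smul, ← pow_succ, pow_succ', mul_smul, T_pow_width_smul]
  · apply Function.IsPeriodicPt.minimalPeriod_dvd
    rw [Function.IsPeriodicPt, Function.IsFixedPt, smul_iterate]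
    show T ^ width (T • x) • x = x
    have h := T_pow_width_smul (T • x)
    rw [smul_smul, ← pow_succ, pow_succ', mul_smul] at h
    exact smul_left_cancel T h

theorem width_T_zpow_smul {N : ℕ} (x : SL(2,ℤ) ⧸ Gamma0 N) (n : ℤ) : width (T ^ n • x) = width x := by
  induction n using Int.induction_on with
  | zero => simp
  | succ k ih => rw [add_comm, zpow_one_add, mul_smul, width_T_smul, ih]
  | pred k ih =>
    have := width_T_smul (T ^ (-(k : ℤ) - 1) • x)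
    rw [smul_smul, ← zpow_one_add, show (1 : ℤ) + (-(k : ℤ) - 1) = -(k : ℤ) by ring] at this
    rw [← this, ih]

/-- the width of a point equals the width of its cusp -/
theorem width_eq_cuspWidth {N : ℕ} (x : SL(2,ℤ) ⧸ Gamma0 N) :
    width x = cuspWidth (Quotient.mk'' x : Cusps N) := by
  have h : (Quotient.mk'' (cuspRep (Quotient.mk'' x : Cusps N)) : Cusps N) = Quotient.mk'' x :=
    mk_cuspRep _
  rw [Quotient.eq'', MulAction.orbitRel_apply, MulAction.mem_orbit_iff] at h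
  obtain ⟨⟨t, ht⟩, h⟩ := h
  obtain ⟨n, rfl⟩ := Subgroup.mem_zpowers_iff.mp ht
  have h' : T ^ n • x = cuspRep (Quotient.mk'' x : Cusps N) := h
  unfold cuspWidth
  rw [← h', width_T_zpow_smul]

/-- `X_N` is the disjoint union over the cusps `s` of `ZMod (cuspWidth s)`. -/
noncomputable def cuspSigmaEquivZMod (N : ℕ) :
    (SL(2,ℤ) ⧸ Gamma0 N) ≃ (s : Cusps N) × ZMod (cuspWidth s) :=
  (MulAction.selfEquivSigmaOrbits (Subgroup.zpowers T) (SL(2,ℤ) ⧸ Gamma0 N)).trans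
    (Equiv.sigmaCongrRight fun s => MulAction.orbitZPowersEquiv T (Quotient.out s))

theorem cuspSigmaEquivZMod_symm_apply (N : ℕ) (s : Cusps N) (k : ZMod (cuspWidth s)) :
    (cuspSigmaEquivZMod N).symm ⟨s, k⟩ = T ^ (k.cast : ℤ) • cuspRep s := by
  unfold cuspSigmaEquivZMod
  rw [Equiv.symm_trans_apply, Equiv.sigmaCongrRight_symm, Equiv.sigmaCongrRight_apply]
  simp only [MulAction.selfEquivSigmaOrbits]
  show ((MulAction.orbitZPowersEquiv T (Quotient.out s)).symm k : SL(2,ℤ) ⧸ Gamma0 N) = _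
  rw [MulAction.orbitZPowersEquiv_symm_apply]
  rfl

/-- `X_N` is the disjoint union over the cusps `s` of `{T ^ m • cuspRep s | m < cuspWidth s}`. -/
noncomputable def cuspSigmaEquiv (N : ℕ) [NeZero N] :
    ((s : Cusps N) × Fin (cuspWidth s)) ≃ (SL(2,ℤ) ⧸ Gamma0 N) :=
  (Equiv.sigmaCongrRight fun s => (ZMod.finEquiv (cuspWidth s)).toEquiv).trans
    (cuspSigmaEquivZMod N).symm

theorem finEquiv_apply_eq_natCast (c : ℕ) [NeZero c] (m : Fin c) :
    (ZMod.finEquiv c m : ZMod c) = ((m : ℕ) : ZMod c) := by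
  cases c with
  | zero => exact (NeZero.ne 0 rfl).elim
  | succ w => exact (Fin.cast_val_eq_self m).symm

theorem cuspSigmaEquiv_apply (N : ℕ) [NeZero N] (s : Cusps N) (m : Fin (cuspWidth s)) :
    cuspSigmaEquiv N ⟨s, m⟩ = T ^ (m : ℕ) • cuspRep s := by
  unfold cuspSigmaEquiv
  rw [Equiv.trans_apply, Equiv.sigmaCongrRight_apply]
  simp only [RingEquiv.toEquiv_eq_coe, EquivLike.coe_coe]
  rw [cuspSigmaEquivZMod_symm_apply, finEquiv_apply_eq_natCast, ZMod.cast_eq_val, ZMod.val_natCast,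
    Nat.mod_eq_of_lt m.2, zpow_natCast]

/-- sum of the widths of the cusps = index of `Γ₀(N)` -/
theorem sum_cuspWidth (N : ℕ) [NeZero N] [Fintype (Cusps N)] :
    ∑ s : Cusps N, cuspWidth s = Nat.card (SL(2,ℤ) ⧸ Gamma0 N) := by
  rw [Nat.card_congr (cuspSigmaEquivZMod N), Nat.card_sigma]
  refine Finset.sum_congr rfl fun s _ => ?_
  rw [Nat.card_zmod]

theorem sum_cuspWidth_sub_one (N : ℕ) [NeZero N] [Fintype (Cusps N)] :
    ∑ s : Cusps N, (cuspWidth s - 1) + ModularCurve.cuspCount N = Nat.card (SL(2,ℤ) ⧸ Gamma0 N) := by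
  rw [← sum_cuspWidth N, ← card_cusps N, Nat.card_eq_fintype_card, ← Finset.card_univ,
    Finset.card_eq_sum_ones, ← Finset.sum_add_distrib]
  refine Finset.sum_congr rfl fun s _ => ?_
  have := cuspWidth_pos s
  omega

/-- `T ^ n` fixes the coset of `g` iff `N ∣ n * c ^ 2`, `c` the lower left entry of `g`. -/
theorem T_zpow_smul_mk_eq_iff (N : ℕ) (g : SL(2,ℤ)) (n : ℤ) :
    T ^ n • (g : SL(2,ℤ) ⧸ Gamma0 N) = (g : SL(2,ℤ) ⧸ Gamma0 N) ↔ (N : ℤ) ∣ n * (g 1 0) ^ 2 := by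
  show ((T ^ n * g : SL(2,ℤ)) : SL(2,ℤ) ⧸ Gamma0 N) = (g : SL(2,ℤ) ⧸ Gamma0 N) ↔ _
  rw [coset_eq_iff, (T_zpow_mul_apply n g).1, (T_zpow_mul_apply n g).2]
  have : (g 0 0 + n * g 1 0) * g 1 0 - g 1 0 * g 0 0 = n * (g 1 0) ^ 2 := by ring
  rw [this]

theorem dvd_mul_iff_div_gcd_dvd (N c2 n : ℕ) (hN : 0 < N) :
    N ∣ n * c2 ↔ N / Nat.gcd N c2 ∣ n := by
  have hgpos : 0 < Nat.gcd N c2 := Nat.gcd_pos_of_pos_left _ hN
  have hcop0 := Nat.coprime_div_gcd_div_gcd hgpos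
  obtain ⟨N', hN'⟩ := Nat.gcd_dvd_left N c2
  obtain ⟨c', hc'⟩ := Nat.gcd_dvd_right N c2
  rw [Nat.div_eq_of_eq_mul_right hgpos hN', Nat.div_eq_of_eq_mul_right hgpos hc'] at hcop0
  rw [Nat.div_eq_of_eq_mul_right hgpos hN']
  generalize Nat.gcd N c2 = G at *
  subst hN' hc'
  constructor
  · intro h
    have h3 : G * N' ∣ G * (n * c') := by
      have : n * (G * c') = G * (n * c') := by ring
      rw [← this]; exact h
    exact hcop0.dvd_of_dvd_mul_right (Nat.dvd_of_mul_dvd_mul_left hgpos h3)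
  · rintro ⟨t, rfl⟩
    exact ⟨t * c', by ring⟩

/-- **width formula**: the cusp `g∞` of `Γ₀(N)` has width `N / gcd(N, c²)`. -/
theorem width_mk (N : ℕ) [NeZero N] (g : SL(2,ℤ)) :
    width (g : SL(2,ℤ) ⧸ Gamma0 N) = N / Nat.gcd N ((g 1 0).natAbs ^ 2) := by
  have hN : 0 < N := NeZero.pos N
  have key : ∀ n : ℕ, T ^ n • (g : SL(2,ℤ) ⧸ Gamma0 N) = (g : SL(2,ℤ) ⧸ Gamma0 N) ↔
      N / Nat.gcd N ((g 1 0).natAbs ^ 2) ∣ n := by
    intro n
    have h1 := T_zpow_smul_mk_eq_iff N g (n : ℤ)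
    rw [zpow_natCast] at h1
    rw [h1]
    have h2 : (n : ℤ) * (g 1 0) ^ 2 = ((n * (g 1 0).natAbs ^ 2 : ℕ) : ℤ) := by
      push_cast; rw [sq_abs]
    rw [h2, Int.natCast_dvd_natCast]
    exact dvd_mul_iff_div_gcd_dvd N _ n hN
  apply Nat.dvd_antisymm
  · exact (T_pow_smul_eq_self_iff _ _).mp ((key _).mpr dvd_rfl)
  · exact (key _).mp (T_pow_width_smul _)

end Fermat.Agent.S20_helper11
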