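/-
Fermat/Agent/S20_helper11/BlockDFT.lean  (helper11; T20 piece C2a, generic part, Mathlib only)

Block DFT determinant identity: if for every block `s` the columns of `M` indexed by the block are
the discrete Fourier transforms of the corresponding columns of `C`, then
`det M = b * det C` with a nonzero constant `b` (product of Vandermonde determinants).
Also `det (blockDiagonal' d) = prod of det (d s)` and the `qParam` product identity of one block.
-/
import Mathlib

open Matrix Complex
open scoped Real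

namespace Fermat.Agent.S20_helper11

/-- the standard primitive `n`-th root of unity `exp (2πi / n)` -/
noncomputable def zetaW (n : ℕ) : ℂ := Complex.exp (2 * π * I / n)

theorem zetaW_isPrimitiveRoot (n : ℕ) (hn : n ≠ 0) : IsPrimitiveRoot (zetaW n) n :=
  Complex.isPrimitiveRoot_exp n hn

theorem zetaW_ne_zero (n : ℕ) : zetaW n ≠ 0 := Complex.exp_ne_zero _

/-- the DFT matrix `(i, m) ↦ ζ_n ^ (-(m * i))` -/
noncomputable def dftMat (n : ℕ) : Matrix (Fin n) (Fin n) ℂ :=
  fun i m => zetaW n ^ (-((m : ℕ) * (i : ℕ) : ℤ))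

theorem dftMat_eq_vandermonde_transpose (n : ℕ) :
    dftMat n = (Matrix.vandermonde fun m : Fin n => (zetaW n)⁻¹ ^ (m : ℕ))ᵀ := by
  ext i m
  simp only [dftMat, Matrix.transpose_apply, Matrix.vandermonde_apply]
  rw [← pow_mul, _root_.zpow_neg, ← Nat.cast_mul, zpow_natCast, inv_pow]

theorem det_dftMat_ne_zero (n : ℕ) : (dftMat n).det ≠ 0 := by
  rcases Nat.eq_zero_or_pos n with rfl | hn
  · simp
  rw [dftMat_eq_vandermonde_transpose, Matrix.det_transpose, Matrix.det_vandermonde_ne_zero_iff]
  intro a b hab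
  have hprim : IsPrimitiveRoot (zetaW n)⁻¹ n := (zetaW_isPrimitiveRoot n hn.ne').inv
  have := hprim.pow_inj a.2 b.2 hab
  exact Fin.ext this

theorem det_blockDiagonal'_eq {R : Type*} [CommRing R] {σ : Type*} [Fintype σ] [DecidableEq σ]
    {m' : σ → Type*} [∀ s, Fintype (m' s)] [∀ s, DecidableEq (m' s)]
    (d : ∀ s, Matrix (m' s) (m' s) R) : (Matrix.blockDiagonal' d).det = ∏ s, (d s).det := by
  classical
  let _ : LinearOrder σ := IsWellOrder.linearOrder WellOrderingRel
  rw [(Matrix.blockTriangular_blockDiagonal' d).det_fintype]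
  refine Finset.prod_congr rfl fun k _ => ?_
  rw [← Matrix.det_submatrix_equiv_self (Equiv.sigmaSubtype k) (d k)]
  congr 1
  ext ⟨⟨i, x⟩, hi⟩ ⟨⟨j, y⟩, hj⟩
  simp only at hi hj
  subst hi hj
  simp [Matrix.toSquareBlock_def, Matrix.blockDiagonal'_apply, Equiv.sigmaSubtype]


section Block

variable {σ : Type*} [Fintype σ] [DecidableEq σ] (w : σ → ℕ)
variable {X : Type*} [Fintype X] [DecidableEq X]

/-- the nonzero constant `b` of the block-DFT determinant identity -/
noncomputable def dftConst : ℂ := ∏ s : σ, (dftMat (w s)).det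

omit [DecidableEq σ] in
theorem dftConst_ne_zero : dftConst w ≠ 0 :=
  Finset.prod_ne_zero_iff.mpr fun s _ => det_dftMat_ne_zero (w s)

/-- **Block DFT determinant identity.** If the columns of `M` in the block `s` are the DFT of
the columns of `C` in that block, then `det M = b * det C` with `b ≠ 0` independent of `M`, `C`. -/
theorem det_eq_dftConst_mul (e : ((s : σ) × Fin (w s)) ≃ X) (M : Matrix X X ℂ)
    (C : Matrix X ((s : σ) × Fin (w s)) ℂ)
    (h : ∀ (a : X) (s : σ) (m : Fin (w s)),
      M a (e ⟨s, m⟩) = ∑ i : Fin (w s), zetaW (w s) ^ (-((m : ℕ) * (i : ℕ) : ℤ)) * C a ⟨s, i⟩) :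
    M.det = dftConst w * (Matrix.reindex (Equiv.refl X) e C).det := by
  have hM : M = Matrix.reindex (Equiv.refl X) e (C * Matrix.blockDiagonal' fun s => dftMat (w s)) := by
    ext a x
    obtain ⟨⟨s, m⟩, rfl⟩ := e.surjective x
    rw [h a s m, Matrix.reindex_apply, Matrix.submatrix_apply, Equiv.symm_apply_apply,
      Matrix.mul_apply, Fintype.sum_sigma]
    rw [Finset.sum_eq_single s]
    · refine Finset.sum_congr rfl fun i _ => ?_
      rw [Matrix.blockDiagonal'_apply_eq, dftMat, mul_comm]
      rfl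
    · intro s' _ hs'
      refine Finset.sum_eq_zero fun i _ => ?_
      rw [Matrix.blockDiagonal'_apply_ne _ _ _ hs', mul_zero]
    · intro hs; exact absurd (Finset.mem_univ s) hs
  have hmul : Matrix.reindex (Equiv.refl X) e (C * Matrix.blockDiagonal' fun s => dftMat (w s)) =
      Matrix.reindex (Equiv.refl X) e C *
        Matrix.reindex e e (Matrix.blockDiagonal' fun s => dftMat (w s)) := by
    simp only [Matrix.reindex_apply]
    rw [Matrix.submatrix_mul_equiv]
  rw [hM, hmul, Matrix.det_mul, Matrix.det_reindex_self, det_blockDiagonal'_eq, mul_comm]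
  rfl

end Block


section QParam

open Function.Periodic (qParam)

theorem qParam_natCast_pow_self (n : ℕ) (hn : n ≠ 0) (z : ℂ) :
    (qParam (n : ℝ) z) ^ n = qParam 1 z := by
  unfold Function.Periodic.qParam
  rw [← Complex.exp_nat_mul]
  congr 1
  have : (n : ℂ) ≠ 0 := by exact_mod_cast hn
  push_cast
  field_simp

theorem prod_qParam_block (n : ℕ) (hn : n ≠ 0) (z : ℂ) :
    ∏ i : Fin n, (qParam (n : ℝ) z) ^ (2 * (i : ℕ)) = (qParam 1 z) ^ (n - 1) := by
  rw [Finset.prod_pow_eq_pow_sum, ← qParam_natCast_pow_self n hn z, ← pow_mul]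
  congr 1
  rw [Fin.sum_univ_eq_sum_range (fun i => 2 * i) n, ← Finset.mul_sum, mul_comm 2,
    Finset.sum_range_id_mul_two]

end QParam

end Fermat.Agent.S20_helper11
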