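/-
Fermat/Agent/S20_helper11/CuspTotals.lean  (helper11; T20 piece E-Cinf)

Totals over the cusps of `Gamma0(N)` in the prelude's shapes, combining helper27's index count with
the widths API:  sum of widths = dedekindPsi N,  sum of (width - 1) = dedekindPsi N - cuspCount N.
-/
import Fermat.Agent.S20_helper11.CuspWidth
import Fermat.Agent.S20_helper27.Index

open CongruenceSubgroup Matrix.SpecialLinearGroup ModularGroup
open scoped MatrixGroups

namespace Fermat.Agent.S20_helper11

theorem sum_cuspWidth_eq_dedekindPsi (N : ℕ) [NeZero N] [Fintype (Cusps N)] :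
    ∑ s : Cusps N, cuspWidth s = ModularCurve.dedekindPsi N := by
  rw [sum_cuspWidth]
  exact Fermat.Agent.S20_helper27.card_XN N

theorem sum_cuspWidth_sub_one_add_cuspCount (N : ℕ) [NeZero N] [Fintype (Cusps N)] :
    ∑ s : Cusps N, (cuspWidth s - 1) + ModularCurve.cuspCount N = ModularCurve.dedekindPsi N := by
  rw [sum_cuspWidth_sub_one]
  exact Fermat.Agent.S20_helper27.card_XN N

/-- in `ℚ`, the shape the genus bookkeeping uses: `∑ (w_s - 1) / 2 = (ψ(N) - ν∞(N)) / 2` -/
theorem sum_cuspWidth_sub_one_rat (N : ℕ) [NeZero N] [Fintype (Cusps N)] :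
    ∑ s : Cusps N, ((cuspWidth s : ℚ) - 1) =
      (ModularCurve.dedekindPsi N : ℚ) - (ModularCurve.cuspCount N : ℚ) := by
  have h := sum_cuspWidth_sub_one_add_cuspCount N
  have h2 : ∑ s : Cusps N, ((cuspWidth s : ℚ) - 1) = ((∑ s : Cusps N, (cuspWidth s - 1) : ℕ) : ℚ) := by
    push_cast
    refine Finset.sum_congr rfl fun s _ => ?_
    have := cuspWidth_pos s
    rw [Nat.cast_sub this]; simp
  rw [h2, ← h]
  push_cast
  ring

end Fermat.Agent.S20_helper11
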