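/-
Fermat/Agent/S20_helper11/CuspDFT.lean  (helper11; T20 piece C2a, specialisation to the cusps of Gamma0(N))

Index set of the cusp matrix: pairs (cusp s, residue m mod width of s), identified with
`X_N = SL(2,Z) / Gamma0(N)` by `cuspSigmaEquiv N : (s, m) -> T^m * rep s`.
-/
import Fermat.Agent.S20_helper11.BlockDFT
import Fermat.Agent.S20_helper11.CuspTotals

open CongruenceSubgroup Matrix.SpecialLinearGroup ModularGroup
open scoped MatrixGroups

namespace Fermat.Agent.S20_helper11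

/-- the nonzero constant of the cusp DFT determinant identity -/
noncomputable def cuspDftConst (N : ℕ) [Fintype (Cusps N)] : ℂ :=
  dftConst (fun s : Cusps N => cuspWidth s)

theorem cuspDftConst_ne_zero (N : ℕ) [Fintype (Cusps N)] : cuspDftConst N ≠ 0 :=
  dftConst_ne_zero _

/-- **C2a**: block DFT determinant identity for the cusps of `Γ₀(N)`. -/
theorem cusp_det_eq (N : ℕ) [NeZero N] [Fintype (Cusps N)] [DecidableEq (Cusps N)]
    [Fintype (SL(2,ℤ) ⧸ Gamma0 N)] [DecidableEq (SL(2,ℤ) ⧸ Gamma0 N)]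
    (M : Matrix (SL(2,ℤ) ⧸ Gamma0 N) (SL(2,ℤ) ⧸ Gamma0 N) ℂ)
    (C : Matrix (SL(2,ℤ) ⧸ Gamma0 N) ((s : Cusps N) × Fin (cuspWidth s)) ℂ)
    (h : ∀ (a : SL(2,ℤ) ⧸ Gamma0 N) (s : Cusps N) (m : Fin (cuspWidth s)),
      M a (T ^ (m : ℕ) • cuspRep s) =
        ∑ i : Fin (cuspWidth s), zetaW (cuspWidth s) ^ (-((m : ℕ) * (i : ℕ) : ℤ)) * C a ⟨s, i⟩) :
    M.det = cuspDftConst N * (Matrix.reindex (Equiv.refl _) (cuspSigmaEquiv N) C).det := by
  refine det_eq_dftConst_mul (fun s : Cusps N => cuspWidth s) (cuspSigmaEquiv N) M C ?_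
  intro a s m
  rw [cuspSigmaEquiv_apply]
  exact h a s m

open Function.Periodic (qParam) in
/-- product of the Puiseux monomials over all rows of the cusp matrix -/
theorem prod_qParam_cusps (N : ℕ) [NeZero N] [Fintype (Cusps N)] (z : ℂ) :
    ∏ x : (s : Cusps N) × Fin (cuspWidth s), (qParam (cuspWidth x.1 : ℝ) z) ^ (2 * (x.2 : ℕ)) =
      (qParam 1 z) ^ (ModularCurve.dedekindPsi N - ModularCurve.cuspCount N) := by
  rw [Fintype.prod_sigma]
  have h1 : ∀ s : Cusps N, ∏ i : Fin (cuspWidth s), (qParam (cuspWidth s : ℝ) z) ^ (2 * (i : ℕ)) =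
      (qParam 1 z) ^ (cuspWidth s - 1) := fun s =>
    prod_qParam_block (cuspWidth s) (cuspWidth_pos s).ne' z
  rw [Finset.prod_congr rfl fun s _ => h1 s, Finset.prod_pow_eq_pow_sum]
  congr 1
  have := sum_cuspWidth_sub_one_add_cuspCount N
  omega

end Fermat.Agent.S20_helper11
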